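import Fermat.Agent.S17.Loc.GaussTensor
import Fermat.Agent.RED.Gauss.ON
import Fermat.Agent.RED.Deuring.Basic

/-!
# S17 / Loc 1c : the constant reduction as a `RED.RedData`
-/

set_option autoImplicit false
noncomputable section

open scoped TensorProduct

namespace Fermat.Agent.S17.Loc

open S27 VT RED

variable {k Ω : Type*} [Field k] [Field Ω] [Algebra k Ω] {O : ValuationSubring Ω}
variable (F FΩ : Type*) [Field F] [Field FΩ]
  [Algebra k F] [Algebra Ω FΩ] [Algebra F FΩ] [Algebra k FΩ]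
  [IsScalarTower k Ω FΩ] [IsScalarTower k F FΩ]

/-- `iotaO` as a ring homomorphism -/
abbrev iR (hO : IsKRat k O) : F ⊗[k] oAlg hO →+* FΩ := (iotaO F FΩ hO : F ⊗[k] oAlg hO →+* FΩ)

/-- `rhoO` as a ring homomorphism -/
abbrev rR (hO : IsKRat k O) : F ⊗[k] oAlg hO →+* F := (rhoO F hO : F ⊗[k] oAlg hO →+* F)

variable {F FΩ}

/-- constants of `O` in `F ⊗ O`. -/
def constO (F : Type*) [Field F] [Algebra k F] (hO : IsKRat k O) (c : oAlg hO) :
    F ⊗[k] oAlg hO := 1 ⊗ₜ c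

theorem iR_constO (hO : IsKRat k O) (c : oAlg hO) :
    iR F FΩ hO (constO F hO c) = algebraMap Ω FΩ (c : Ω) := by
  show iotaO F FΩ hO (1 ⊗ₜ c) = _
  rw [iotaO_tmul, map_one, one_mul]

theorem rR_constO (hO : IsKRat k O) (c : oAlg hO) :
    rR F hO (constO F hO c) = algebraMap k F (hO.res (c : Ω)) := by
  show rhoO F hO (1 ⊗ₜ c) = _
  rw [rhoO_tmul, one_mul]

variable [IsBC k Ω F FΩ]

theorem iR_injective (hO : IsKRat k O) : Function.Injective (iR F FΩ hO) :=
  iotaO_injective FΩ hO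

variable {ι : Type*} (b : Module.Basis ι k F)

omit [IsBC k Ω F FΩ] in
/-- normalisation of a nonzero element of `F ⊗ Ω`. -/
theorem exists_norm (hO : IsKRat k O) (u : ι →₀ Ω) (hu : u ≠ 0) :
    ∃ (c : Ω) (p : F ⊗[k] oAlg hO), c ≠ 0 ∧
      iR F FΩ hO p = algebraMap Ω FΩ c * BCAux.Lam (K := Ω) (F := FΩ) b u ∧ rR F hO p ≠ 0 := by
  obtain ⟨c, α, i₀, hc, hα, h1⟩ := exists_pivot_coord hO u hu
  refine ⟨c, tO b hO α, hc, ?_, ?_⟩
  · show iotaO F FΩ hO (tO b hO α) = _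
    rw [iotaO_tO, hα, map_smul, Algebra.smul_def]
  · intro h0
    have h2 := repr_rhoO_tO b hO α i₀
    have h3 : rhoO F hO (tO b hO α) = 0 := h0
    rw [h3, map_zero, Finsupp.zero_apply, h1] at h2
    have h4 := hO.res_algebraMap 1
    rw [map_one] at h4
    rw [h4] at h2
    exact zero_ne_one h2

/-- every nonzero element of `FΩ` is a constant times a quotient of primitive elements. -/
theorem exists_scale_quot (hO : IsKRat k O) (y : FΩ) (hy : y ≠ 0) :
    ∃ (c : Ω) (p p' : F ⊗[k] oAlg hO), c ≠ 0 ∧ rR F hO p ≠ 0 ∧ rR F hO p' ≠ 0 ∧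
      y * iR F FΩ hO p' = algebraMap Ω FΩ c * iR F FΩ hO p := by
  classical
  let b := Module.Basis.ofVectorSpace k F
  obtain ⟨a, a', ha', h⟩ := IsBC.surj (k := k) (K := Ω) (F₀ := F) y
  obtain ⟨u, hu⟩ := BCAux.bcMap_mem_range (K := Ω) (F := FΩ) b a
  obtain ⟨w, hw⟩ := BCAux.bcMap_mem_range (K := Ω) (F := FΩ) b a'
  have hw0 : w ≠ 0 := by
    rintro rfl
    rw [map_zero] at hw
    exact ha' hw.symm
  have hu0 : u ≠ 0 := by
    rintro rfl
    rw [map_zero] at hu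
    rw [← hu] at h
    exact (mul_ne_zero hy ha') h
  obtain ⟨c1, p, hc1, hp, hp0⟩ := exists_norm (FΩ := FΩ) b hO u hu0
  obtain ⟨c2, p', hc2, hp', hp'0⟩ := exists_norm (FΩ := FΩ) b hO w hw0
  refine ⟨c2 / c1, p, p', div_ne_zero hc2 hc1, hp0, hp'0, ?_⟩
  rw [hp, hp', hu, hw, ← h, map_div₀]
  have : algebraMap Ω FΩ c1 ≠ 0 := by simpa using hc1
  field_simp

theorem gSub_hval (hO : IsKRat k O) (y : FΩ) :
    y ∈ gSub (iR F FΩ hO) (rR F hO) ∨ y⁻¹ ∈ gSub (iR F FΩ hO) (rR F hO) := by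
  by_cases hy : y = 0
  · left; rw [hy]; exact Subring.zero_mem _
  obtain ⟨c, p, p', hc, hp, hp', h⟩ := exists_scale_quot (F := F) hO y hy
  rcases O.mem_or_inv_mem c with hcO | hcO
  · left
    refine ⟨constO F hO ⟨c, hcO⟩ * p, p', hp', ?_⟩
    rw [map_mul, iR_constO, h]
  · right
    refine ⟨constO F hO ⟨c⁻¹, hcO⟩ * p', p, hp, ?_⟩
    rw [map_mul, iR_constO]
    have hcF : algebraMap Ω FΩ c ≠ 0 := by simpa using hc
    show y⁻¹ * _ = algebraMap Ω FΩ c⁻¹ * _
    rw [map_inv₀]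
    field_simp
    rw [mul_comm, h]

variable (F FΩ) in
/-- the Gauss valuation ring -/
def cO (hO : IsKRat k O) : ValuationSubring FΩ := gVal (gSub_hval (F := F) (FΩ := FΩ) hO)

variable (F FΩ) in
/-- the reduction map -/
def cRed (hO : IsKRat k O) : cO F FΩ hO →+* F where
  toFun x := gRed (iR_injective (F := F) (FΩ := FΩ) hO) ⟨x.1, x.2⟩
  map_one' := map_one (gRed (iR_injective (F := F) (FΩ := FΩ) hO))
  map_mul' x y := map_mul (gRed (iR_injective (F := F) (FΩ := FΩ) hO)) ⟨x.1, x.2⟩ ⟨y.1, y.2⟩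
  map_zero' := map_zero (gRed (iR_injective (F := F) (FΩ := FΩ) hO))
  map_add' x y := map_add (gRed (iR_injective (F := F) (FΩ := FΩ) hO)) ⟨x.1, x.2⟩ ⟨y.1, y.2⟩

theorem cRed_eq (hO : IsKRat k O) (x : cO F FΩ hO) {a a' : F ⊗[k] oAlg hO} (ha' : rR F hO a' ≠ 0)
    (h : (x : FΩ) * iR F FΩ hO a' = iR F FΩ hO a) :
    cRed F FΩ hO x = rR F hO a / rR F hO a' :=
  gRed_eq (iR_injective (F := F) (FΩ := FΩ) hO) ⟨x.1, x.2⟩ ha' h

theorem iR_mem_cO (hO : IsKRat k O) (a : F ⊗[k] oAlg hO) : iR F FΩ hO a ∈ cO F FΩ hO :=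
  map_mem_gSub a

theorem cRed_iR (hO : IsKRat k O) (a : F ⊗[k] oAlg hO) :
    cRed F FΩ hO ⟨iR F FΩ hO a, iR_mem_cO hO a⟩ = rR F hO a :=
  gRed_map (iR_injective (F := F) (FΩ := FΩ) hO) a

theorem algebraMap_mem_cO_iff (hO : IsKRat k O) (c : Ω) :
    algebraMap Ω FΩ c ∈ cO F FΩ hO ↔ c ∈ O := by
  constructor
  · rintro ⟨a, a', ha', h⟩
    by_contra hc
    have hc' : c⁻¹ ∈ O := (O.mem_or_inv_mem c).resolve_left hc
    have hc0 : c ≠ 0 := by
      rintro rfl
      exact hc O.zero_mem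
    have hlt : O.valuation c⁻¹ < 1 := by
      rw [map_inv₀]
      have h1 : 1 < O.valuation c := by
        rw [← not_le, ValuationSubring.valuation_le_one_iff]; exact hc
      exact inv_lt_one_of_one_lt₀ h1
    have hres : hO.res c⁻¹ = 0 := (hO.res_eq_zero_iff hc').2 hlt
    have e : a' = constO F hO ⟨c⁻¹, hc'⟩ * a := by
      apply iR_injective (F := F) (FΩ := FΩ) hO
      rw [map_mul, iR_constO, ← h]
      have hcF : algebraMap Ω FΩ c ≠ 0 := by simpa using hc0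
      show _ = algebraMap Ω FΩ c⁻¹ * _
      rw [map_inv₀]
      field_simp
    apply ha'
    rw [e, map_mul, rR_constO]
    show algebraMap k F (hO.res c⁻¹) * _ = 0
    rw [hres, map_zero, zero_mul]
  · intro hc
    have := iR_mem_cO (F := F) (FΩ := FΩ) hO (constO F hO ⟨c, hc⟩)
    rwa [iR_constO] at this

theorem cRed_algebraMap (hO : IsKRat k O) (c : Ω) (h : algebraMap Ω FΩ c ∈ cO F FΩ hO) :
    cRed F FΩ hO ⟨_, h⟩ = algebraMap k F (hO.res c) := by
  have hc : c ∈ O := (algebraMap_mem_cO_iff hO c).1 h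
  have h1 := cRed_iR (F := F) (FΩ := FΩ) hO (constO F hO ⟨c, hc⟩)
  rw [rR_constO] at h1
  rw [← h1]
  congr 1
  apply Subtype.ext
  exact (iR_constO hO ⟨c, hc⟩).symm

omit [IsBC k Ω F FΩ] in
theorem iR_tmul_one (hO : IsKRat k O) (f : F) :
    iR F FΩ hO (f ⊗ₜ 1) = algebraMap F FΩ f := by
  show iotaO F FΩ hO (f ⊗ₜ 1) = _
  rw [iotaO_tmul]
  simp

theorem rR_tmul_one (hO : IsKRat k O) (f : F) : rR F hO (f ⊗ₜ 1) = f := by
  show rhoO F hO (f ⊗ₜ 1) = _
  rw [rhoO_tmul]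
  have h4 := hO.res_algebraMap 1
  rw [map_one] at h4
  show f * algebraMap k F (hO.res 1) = f
  rw [h4, map_one, mul_one]

theorem algebraMap_F_mem_cO (hO : IsKRat k O) (f : F) : algebraMap F FΩ f ∈ cO F FΩ hO := by
  have := iR_mem_cO (F := F) (FΩ := FΩ) hO (f ⊗ₜ 1)
  rwa [iR_tmul_one] at this

theorem cRed_algebraMap_F (hO : IsKRat k O) (f : F) :
    cRed F FΩ hO ⟨_, algebraMap_F_mem_cO hO f⟩ = f := by
  have e : (⟨algebraMap F FΩ f, algebraMap_F_mem_cO hO f⟩ : cO F FΩ hO) =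
      ⟨iR F FΩ hO (f ⊗ₜ 1), iR_mem_cO hO _⟩ := Subtype.ext (iR_tmul_one (FΩ := FΩ) hO f).symm
  rw [e, cRed_iR, rR_tmul_one]

variable (F FΩ) in
/-- the constant reduction as a `RedData`. -/
def cRedData (hO : IsKRat k O) : RedData Ω FΩ k F where
  O := cO F FΩ hO
  red := cRed F FΩ hO
  red_surjective f := ⟨_, cRed_algebraMap_F hO f⟩
  isUnit_of_red_ne_zero := by
    intro x hx
    have hinv : (x : FΩ)⁻¹ ∈ cO F FΩ hO :=
      inv_mem_gSub (iR_injective (F := F) (FΩ := FΩ) hO) ⟨x.1, x.2⟩ hx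
    have hx0 : (x : FΩ) ≠ 0 := by
      intro h0
      apply hx
      have : x = 0 := Subtype.ext h0
      rw [this, map_zero]
    exact IsUnit.of_mul_eq_one ⟨_, hinv⟩ (Subtype.ext (mul_inv_cancel₀ hx0))
  exists_const a :=
    ⟨algebraMap k Ω a, (algebraMap_mem_cO_iff hO _).2 (hO.algebraMap_mem a), by
      rw [cRed_algebraMap, hO.res_algebraMap]⟩
  red_const c hc := ⟨hO.res c, cRed_algebraMap hO c hc⟩
  exists_scale := by
    intro f hf
    obtain ⟨c, p, p', hc, hp, hp', h⟩ := exists_scale_quot (F := F) hO f hf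
    have hcF : algebraMap Ω FΩ c ≠ 0 := by simpa using hc
    have e : algebraMap Ω FΩ c⁻¹ * f * iR F FΩ hO p' = iR F FΩ hO p := by
      rw [mul_assoc, h, map_inv₀]
      field_simp
    refine ⟨c⁻¹, ⟨p, p', hp', e⟩, ?_⟩
    rw [cRed_eq hO _ hp' e]
    exact div_ne_zero hp hp'

/-- common denominators -/
theorem exists_common_den (s : Finset FΩ) :
    ∃ a' : F ⊗[k] Ω, bcMap k Ω F FΩ a' ≠ 0 ∧
      ∀ v ∈ s, ∃ a : F ⊗[k] Ω, bcMap k Ω F FΩ a' * v = bcMap k Ω F FΩ a := by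
  classical
  induction s using Finset.induction_on with
  | empty => exact ⟨1, by simp, by simp⟩
  | insert v s _ ih =>
    obtain ⟨a', ha', h⟩ := ih
    obtain ⟨c, c', hc', hc⟩ := IsBC.surj (k := k) (K := Ω) (F₀ := F) v
    refine ⟨a' * c', by rw [map_mul]; exact mul_ne_zero ha' hc', ?_⟩
    intro w hw
    rcases Finset.mem_insert.1 hw with rfl | hw
    · exact ⟨a' * c, by rw [map_mul, map_mul, ← hc]; ring⟩
    · obtain ⟨a, ha⟩ := h w hw
      exact ⟨a * c', by rw [map_mul, map_mul, ← ha]; ring⟩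

/-- **(ON)** for the constant reduction. -/
theorem finrank_le_finrank_redSub (hO : IsKRat k O) (V : Submodule Ω FΩ)
    [FiniteDimensional Ω V] :
    Module.finrank Ω V ≤ Module.finrank k ((cRedData F FΩ hO).redSub V) := by
  classical
  let b := Module.Basis.ofVectorSpace k F
  set Λ := BCAux.Lam (K := Ω) (F := FΩ) b with hΛ
  have hΛinj : Function.Injective Λ := BCAux.Lam_injective b
  obtain ⟨s, hs⟩ : V.FG := Module.Finite.iff_fg.1 inferInstance
  obtain ⟨a', ha', hden⟩ := exists_common_den (k := k) (Ω := Ω) (F := F) s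
  set z := bcMap k Ω F FΩ a' with hz
  obtain ⟨w, hw⟩ := BCAux.bcMap_mem_range (K := Ω) (F := FΩ) b a'
  have hw0 : w ≠ 0 := by
    rintro rfl
    rw [map_zero] at hw
    exact ha' hw.symm
  obtain ⟨c, pz, hc, hpz, hpz0⟩ := exists_norm (FΩ := FΩ) b hO w hw0
  have hcF : algebraMap Ω FΩ c ≠ 0 := by simpa using hc
  -- `z V ⊆ range Λ`
  set U : Submodule Ω FΩ := V.map (LinearMap.mulLeft Ω z) with hU
  have hUle : U ≤ LinearMap.range Λ := by
    rw [hU, Submodule.map_le_iff_le_comap, ← hs, Submodule.span_le]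
    intro v hv
    obtain ⟨a, ha⟩ := hden v hv
    show z * v ∈ LinearMap.range Λ
    rw [ha]
    exact BCAux.bcMap_mem_range b a
  set W : Submodule Ω (_ →₀ Ω) := U.comap Λ with hW
  have hfr : Module.finrank Ω W = Module.finrank Ω V := by
    have h1 : W.map Λ = U := by
      rw [hW, Submodule.map_comap_eq, inf_eq_right.2 hUle]
    have h2 : Module.finrank Ω W = Module.finrank Ω (W.map Λ) :=
      (Submodule.equivMapOfInjective Λ hΛinj W).finrank_eq
    have hzinj : Function.Injective (LinearMap.mulLeft Ω z) := by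
      intro x y hxy
      exact mul_left_cancel₀ ha' hxy
    have h3 : Module.finrank Ω V = Module.finrank Ω U :=
      (Submodule.equivMapOfInjective _ hzinj V).finrank_eq
    rw [h2, h1, h3]
  obtain ⟨p, hpW, hpind⟩ := RED.Gauss.exists_orthonormal (L := Ω) (k := k)
    (MA := _ →₀ oAlg hO) (coeV hO) (fun α => rhoO F hO (tO b hO α)) (by
      intro f hf
      obtain ⟨c, α, i₀, _, hα, h1⟩ := exists_pivot_coord hO f hf
      refine ⟨c, α, Finsupp.lapply i₀, b.coord i₀, hα, ?_, ?_⟩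
      · rw [Module.Basis.coord_apply, repr_rhoO_tO, h1]
        have h4 := hO.res_algebraMap 1
        rw [map_one] at h4
        rw [h4]
        exact one_ne_zero
      · intro p' hp'
        rw [Module.Basis.coord_apply, repr_rhoO_tO]
        have h5 : ((p' i₀ : oAlg hO) : Ω) = 0 := hp'
        rw [h5]
        have h4 := hO.res_algebraMap 0
        rwa [map_zero] at h4)
    (Module.finrank Ω V) W hfr.ge
  -- the elements of `V`
  have hx : ∀ j, iR F FΩ hO (tO b hO (p j)) / iR F FΩ hO pz ∈ cO F FΩ hO :=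
    fun j => div_mem_gSub (iR_injective (F := F) (FΩ := FΩ) hO) _ hpz0
  have hxV : ∀ j, iR F FΩ hO (tO b hO (p j)) / iR F FΩ hO pz ∈ V := by
    intro j
    obtain ⟨v, hv, hvz⟩ := hpW j
    have h1 : iR F FΩ hO (tO b hO (p j)) = z * v := by
      show iotaO F FΩ hO (tO b hO (p j)) = _
      rw [iotaO_tO]
      exact hvz.symm
    rw [h1, hpz, hw]
    have : z * v / (algebraMap Ω FΩ c * z) = c⁻¹ • v := by
      rw [Algebra.smul_def, map_inv₀]
      field_simp
    rw [this]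
    exact V.smul_mem _ hv
  have hred : ∀ j, cRed F FΩ hO ⟨_, hx j⟩ = (rR F hO pz)⁻¹ * rhoO F hO (tO b hO (p j)) := by
    intro j
    have := gRed_div (iR_injective (F := F) (FΩ := FΩ) hO) (tO b hO (p j)) hpz0
    rw [← div_eq_inv_mul]
    exact this
  have hind : LinearIndependent k
      (fun j => (⟨cRed F FΩ hO ⟨_, hx j⟩, ⟨⟨_, hx j⟩, hxV j, rfl⟩⟩ :
        (cRedData F FΩ hO).redSub V)) := by
    refine LinearIndependent.of_comp ((cRedData F FΩ hO).redSub V).subtype ?_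
    have : (((cRedData F FΩ hO).redSub V).subtype ∘ fun j =>
        (⟨cRed F FΩ hO ⟨_, hx j⟩, ⟨⟨_, hx j⟩, hxV j, rfl⟩⟩ : (cRedData F FΩ hO).redSub V)) =
        (LinearMap.mulLeft k (rR F hO pz)⁻¹) ∘ fun j => rhoO F hO (tO b hO (p j)) := by
      funext j
      exact hred j
    rw [this]
    refine hpind.map' _ (LinearMap.ker_eq_bot.2 ?_)
    intro x y hxy
    exact mul_left_cancel₀ (inv_ne_zero hpz0) hxy
  have hfd := ((cRedData F FΩ hO).finrank_redSub_le V).1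
  simpa using hind.fintype_card_le_finrank

end Fermat.Agent.S17.Loc
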