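import Fermat.Agent.S17.VT.Prod
import Fermat.Agent.S27.BC.LSpaceBC
import Fermat.Agent.RED.TorsionInj
import Fermat.Agent.RED.FF.DeuringBridge
import Fermat.Agent.RED.S18.Kummer
import Fermat.Agent.S27.NonSpecial
import Fermat.Agent.RR.SepParam
import Fermat.Agent.S17.Loc.GaussMain

/-!
# S17 / Loc 1 : the constant reduction of `FΩ = Frac (F ⊗[k] Ω)` at a valuation ring of `Ω`

`k` algebraically closed of characteristic `0`, `F / k` a function field, `Ω ⊇ k` algebraically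
closed, `O` a valuation ring of `Ω` containing `k`, with residue field `k` (`VT.IsKRat k O`).

* `constRed` : the Gauss valuation ring of `FΩ` : `{a / b : a, b ∈ F ⊗ O, b ≢ 0 mod 𝔪}`, with residue
  field `F` (a `RED.RedData Ω FΩ k F`).
* `redPl : Place Ω FΩ → Place k F` : Deuring's reduction of places (`RED.DeuringHyp.exists_placeMap`).
-/

set_option autoImplicit false

open AlgebraicCurve

namespace Fermat.Agent.S17.Loc

open S27 VT RED

variable {k Ω : Type*} (F FΩ : Type*) [Field k] [Field Ω] [Field F] [Field FΩ]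
  [Algebra k Ω] [Algebra k F] [Algebra Ω FΩ] [Algebra F FΩ] [Algebra k FΩ]
  [IsScalarTower k Ω FΩ] [IsScalarTower k F FΩ]
  [IsAlgClosed k] [CharZero k] [IsAlgClosed Ω] [CharZero Ω] [IsFF k F] [IsFF Ω FΩ] [IsBC k Ω F FΩ]
  {O : ValuationSubring Ω} (hO : IsKRat k O)

/-- **[Loc-1]** existence of the Gauss valuation.

Construction.  Fix a `k`-basis `b` of `F` (S27/BC/Aut.lean `BCAux.Lam`: `a ↦ ∑ a i • b i` is injective
`(ι →₀ Ω) → FΩ` with image `bcMap (F ⊗ Ω)`).  For `y = ∑ a i b i ≠ 0` pick a pivot `i₀` with `v(a i₀)`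
maximal : `y = a i₀ • y'`, `y'` with coefficients in `O`, one of them `1`; `ȳ' = ∑ res (a i / a i₀) b i ≠ 0`.
`A := {∑ a i b i : a i ∈ O}` is a subring (image of `F ⊗ O`), `red₀ : A → F` is a ring homomorphism
(it is `F ⊗ O → F ⊗ k = F`), `R.O := {y / z : y, z ∈ A, red₀ z ≠ 0}`, `red (y / z) = red₀ y / red₀ z`
(as in RED/Gauss/Basic.lean `bigO`, `bigRed`).  `on` : Gauss elimination (RED/Gauss/ON.lean
`exists_orthonormal`): multiply `V` by a common denominator. -/
theorem exists_constRed : ∃ R : RedData Ω FΩ k F,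
    (∀ c : Ω, algebraMap Ω FΩ c ∈ R.O ↔ c ∈ O) ∧
    (∀ (c : Ω) (h : algebraMap Ω FΩ c ∈ R.O), R.red ⟨_, h⟩ = algebraMap k F (hO.res c)) ∧
    (∀ f : F, ∃ h : algebraMap F FΩ f ∈ R.O, R.red ⟨_, h⟩ = f) ∧
    (∀ V : Submodule Ω FΩ, FiniteDimensional Ω V →
      Module.finrank Ω V ≤ Module.finrank k (R.redSub V)) :=
  ⟨cRedData F FΩ hO, algebraMap_mem_cO_iff hO, cRed_algebraMap hO,
    fun f => ⟨algebraMap_F_mem_cO hO f, cRed_algebraMap_F hO f⟩,
    fun V _ => finrank_le_finrank_redSub hO V⟩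

/-- the constant reduction. -/
noncomputable def constRed : RedData Ω FΩ k F := (exists_constRed F FΩ hO).choose

/-- the Gauss valuation ring. -/
noncomputable abbrev gO : ValuationSubring FΩ := (constRed F FΩ hO).O

/-- reduction of functions `FΩ → F`, extended by `0` outside the Gauss ring. -/
noncomputable abbrev grd (a : FΩ) : F := RED.rd (gO F FΩ hO) (constRed F FΩ hO).red a

theorem algebraMap_mem_gO_iff (c : Ω) : algebraMap Ω FΩ c ∈ gO F FΩ hO ↔ c ∈ O :=
  (exists_constRed F FΩ hO).choose_spec.1 c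

theorem grd_algebraMap_Ω {c : Ω} (hc : c ∈ O) :
    grd F FΩ hO (algebraMap Ω FΩ c) = algebraMap k F (hO.res c) := by
  have h : algebraMap Ω FΩ c ∈ gO F FΩ hO := (algebraMap_mem_gO_iff F FΩ hO c).2 hc
  rw [grd, RED.rd_of_mem h]
  exact (exists_constRed F FΩ hO).choose_spec.2.1 c h

theorem algebraMap_mem_gO (f : F) : algebraMap F FΩ f ∈ gO F FΩ hO :=
  ((exists_constRed F FΩ hO).choose_spec.2.2.1 f).1

theorem grd_algebraMap (f : F) : grd F FΩ hO (algebraMap F FΩ f) = f := by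
  rw [grd, RED.rd_of_mem (algebraMap_mem_gO F FΩ hO f)]
  exact ((exists_constRed F FΩ hO).choose_spec.2.2.1 f).2

/-- the Gauss valuation restricted to `Ω` is `O.valuation`. -/
theorem gO_valuation_le_iff (c d : Ω) :
    (gO F FΩ hO).valuation (algebraMap Ω FΩ c) ≤ (gO F FΩ hO).valuation (algebraMap Ω FΩ d) ↔
      O.valuation c ≤ O.valuation d := by
  rcases eq_or_ne d 0 with rfl | hd
  · simp
  · have hd' : algebraMap Ω FΩ d ≠ 0 := by simpa using hd
    have h1 : (gO F FΩ hO).valuation (algebraMap Ω FΩ c) ≤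
        (gO F FΩ hO).valuation (algebraMap Ω FΩ d) ↔
        (gO F FΩ hO).valuation (algebraMap Ω FΩ (c / d)) ≤ 1 := by
      rw [map_div₀, map_div₀, div_le_one₀ (zero_lt_iff.2 ((Valuation.ne_zero_iff _).2 hd'))]
    have h2 : O.valuation c ≤ O.valuation d ↔ O.valuation (c / d) ≤ 1 := by
      rw [map_div₀, div_le_one₀ (zero_lt_iff.2 ((Valuation.ne_zero_iff _).2 hd))]
    rw [h1, h2, ValuationSubring.valuation_le_one_iff, ValuationSubring.valuation_le_one_iff,
      algebraMap_mem_gO_iff]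

/-- a linear combination of `k`-linearly independent functions has Gauss norm the maximum of the
norms of the coefficients. -/
theorem sum_mem_gO {ι : Type*} [Fintype ι] (φ : ι → F) (c : ι → Ω) (hc : ∀ i, c i ∈ O) :
    ∑ i, algebraMap Ω FΩ (c i) * algebraMap F FΩ (φ i) ∈ gO F FΩ hO ∧
    grd F FΩ hO (∑ i, algebraMap Ω FΩ (c i) * algebraMap F FΩ (φ i)) =
      ∑ i, algebraMap k F (hO.res (c i)) * φ i := by
  classical
  have key : ∀ s : Finset ι,
      ∑ i ∈ s, algebraMap Ω FΩ (c i) * algebraMap F FΩ (φ i) ∈ gO F FΩ hO ∧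
      grd F FΩ hO (∑ i ∈ s, algebraMap Ω FΩ (c i) * algebraMap F FΩ (φ i)) =
        ∑ i ∈ s, algebraMap k F (hO.res (c i)) * φ i := by
    intro s
    induction s using Finset.induction_on with
    | empty =>
      refine ⟨by simp, ?_⟩
      have := grd_algebraMap F FΩ hO 0
      simpa using this
    | insert i s hi ih =>
      have h1 : algebraMap Ω FΩ (c i) ∈ gO F FΩ hO := (algebraMap_mem_gO_iff F FΩ hO _).2 (hc i)
      have h2 := algebraMap_mem_gO F FΩ hO (φ i)
      have h3 := (gO F FΩ hO).mul_mem _ _ h1 h2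
      rw [Finset.sum_insert hi, Finset.sum_insert hi]
      refine ⟨(gO F FΩ hO).add_mem _ _ h3 ih.1, ?_⟩
      rw [grd, RED.rd_add h3 ih.1, RED.rd_mul h1 h2]
      rw [← grd, ← grd, ← grd, ih.2, grd_algebraMap_Ω F FΩ hO (hc i), grd_algebraMap]
  exact key Finset.univ

/-- **[Loc-2]** Deuring's reduction of places for the constant reduction:
`RED.exists_deuringHyp` (`IsSepParam.of_charZero`, `genusFF_bc`, `gR_eq_genusFF`) and
`RED.DeuringHyp.exists_placeMap`. -/
theorem exists_redPl : ∃ r : Place Ω FΩ → Place k F, Function.Surjective r ∧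
    IsReduction (gO F FΩ hO) (constRed F FΩ hO).red r ∧
    ∃ c : ℤ, ∀ D : Divisor Ω FΩ, c ≤ Divisor.degree D →
      (constRed F FΩ hO).redSub (LS D) = LS (D.mapDomain r) := by
  obtain ⟨x, hx⟩ := IsFF.exists_param (K := Ω) (F := FΩ)
  obtain ⟨xb, hxb⟩ := IsFF.exists_param (K := k) (F := F)
  have hxs := IsSepParam.of_charZero hx
  have hxbs := IsSepParam.of_charZero hxb
  have hg : gR Ω FΩ ≤ gR k F := by
    rw [hxs.gR_eq_genusFF, hxbs.gR_eq_genusFF, genusFF_bc k Ω F FΩ]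
  obtain ⟨c, H⟩ := exists_deuringHyp (constRed F FΩ hO) hxs hxbs hg
    (exists_constRed F FΩ hO).choose_spec.2.2.2
  obtain ⟨r, hr, hdiv, hLS⟩ := H.exists_placeMap
  exact ⟨r, hr, (constRed F FΩ hO).isReduction hxs r hdiv, c + gR Ω FΩ, hLS⟩

/-- the reduction of places. -/
noncomputable def redPl : Place Ω FΩ → Place k F := (exists_redPl F FΩ hO).choose

theorem redPl_surjective : Function.Surjective (redPl F FΩ hO) :=
  (exists_redPl F FΩ hO).choose_spec.1

theorem isReduction : IsReduction (gO F FΩ hO) (constRed F FΩ hO).red (redPl F FΩ hO) :=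
  (exists_redPl F FΩ hO).choose_spec.2.1

variable {F FΩ}

/-- `r_* div a = div ā`. -/
theorem mapDomain_divOf {a : FΩ} (ha : (gO F FΩ hO).valuation a = 1) :
    (divOf (K := Ω) a).mapDomain (redPl F FΩ hO) = divOf (K := k) (grd F FΩ hO a) := by
  ext Q
  rw [divOf_apply]
  exact ((isReduction F FΩ hO).ord_rd ha (divOf a) (fun P => divOf_apply a P) Q).symm

theorem valuation_algebraMap_eq_one {u : F} (hu : u ≠ 0) :
    (gO F FΩ hO).valuation (algebraMap F FΩ u) = 1 :=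
  (isReduction F FΩ hO).val_eq_one_of_rd_ne_zero (by
    have := grd_algebraMap F FΩ hO u
    rw [grd] at this
    rw [this]
    exact hu)

theorem adic_le_one_iff_ord {K E : Type*} [Field K] [Field E] [Algebra K E] (v : Place K E)
    {f : E} : v.adicValuation f ≤ 1 ↔ 0 ≤ v.ord f := by
  rw [v.adicValuation_le_one_iff]
  constructor
  · rintro (rfl | h)
    · simp
    · exact h
  · exact Or.inr

/-- constant places reduce to themselves.  (`π := r ∘ extPlace` satisfies `π_* div u = div u` for all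
`u : F` by `mapDomain_divOf` and `extDiv_divOf`; if `π P₀ ≠ P₀` take `u` with a pole at `P₀` only.) -/
theorem redPl_extPlace (P : Place k F) : redPl F FΩ hO (extPlace Ω FΩ P) = P := by
  by_contra hne
  obtain ⟨u, hu, hu'⟩ := exists_single_pole P
  have hu0 : u ≠ 0 := by
    rintro rfl
    simp at hu
  have h1 := mapDomain_divOf hO (valuation_algebraMap_eq_one (FΩ := FΩ) hO hu0)
  rw [grd_algebraMap, ← extDiv_divOf (k := k) hu0, extDiv, ← Finsupp.mapDomain_comp] at h1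
  have h2 := RED.mapDomain_apply_nonneg (redPl F FΩ hO ∘ extPlace Ω FΩ) (divOf (K := k) u) P
    (fun P' hP' => by
      rw [divOf_apply, ← adic_le_one_iff_ord]
      refine hu' P' ?_
      rintro rfl
      exact hne hP')
  rw [h1, divOf_apply, ← adic_le_one_iff_ord] at h2
  exact hu h2

/-- evaluation commutes with reduction (from `IsReduction.val_value_le_one`, `rd_sub_value`). -/
theorem val_mem_of_regular {a : FΩ} (ha : a ∈ gO F FΩ hO) (𝔓 : Place Ω FΩ)
    (hreg : ∀ 𝔓' : Place Ω FΩ, redPl F FΩ hO 𝔓' = redPl F FΩ hO 𝔓 → 𝔓'.adicValuation a ≤ 1) :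
    (redPl F FΩ hO 𝔓).adicValuation (grd F FΩ hO a) ≤ 1 ∧ val 𝔓 a ∈ O ∧
      hO.res (val 𝔓 a) = val (redPl F FΩ hO 𝔓) (grd F FΩ hO a) := by
  have H := isReduction F FΩ hO
  have hreg' : ∀ 𝔓' : Place Ω FΩ, redPl F FΩ hO 𝔓' = redPl F FΩ hO 𝔓 → 0 ≤ 𝔓'.ord a :=
    fun 𝔓' h => (adic_le_one_iff_ord 𝔓').1 (hreg 𝔓' h)
  have ha' : a = algebraMap Ω FΩ (val 𝔓 a) ∨ 0 < 𝔓.ord (a - algebraMap Ω FΩ (val 𝔓 a)) := by
    rcases (adic_lt_one_iff_ord 𝔓).1 (val_spec 𝔓 (hreg 𝔓 rfl)) with h | h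
    · exact Or.inl (sub_eq_zero.1 h)
    · exact Or.inr h
  have hc : val 𝔓 a ∈ O := (algebraMap_mem_gO_iff F FΩ hO _).1
    (RED.mem_of_val_le (H.val_value_le_one ha hreg' rfl ha'))
  refine ⟨(adic_le_one_iff_ord _).2 (H.ord_rd_nonneg ha _ hreg'), hc, ?_⟩
  symm
  apply val_unique
  rw [adic_lt_one_iff_ord, ← grd_algebraMap_Ω F FΩ hO hc]
  rcases H.rd_sub_value ha hreg' rfl ha' with h | h
  · exact Or.inl (sub_eq_zero.2 h)
  · exact Or.inr h

/-- a function of `F` which is regular at `r 𝔓` is regular at `𝔓`, with integral value. -/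
theorem val_algebraMap_mem (𝔓 : Place Ω FΩ) {u : F} (hu : (redPl F FΩ hO 𝔓).adicValuation u ≤ 1) :
    𝔓.adicValuation (algebraMap F FΩ u) ≤ 1 ∧ val 𝔓 (algebraMap F FΩ u) ∈ O ∧
      hO.res (val 𝔓 (algebraMap F FΩ u)) = val (redPl F FΩ hO 𝔓) u := by
  have hreg : ∀ 𝔓' : Place Ω FΩ, redPl F FΩ hO 𝔓' = redPl F FΩ hO 𝔓 →
      𝔓'.adicValuation (algebraMap F FΩ u) ≤ 1 := by
    intro 𝔓' h
    rcases rational_or_trivial (k := k) (F₀ := F) 𝔓' with ⟨P', rfl⟩ | h1
    · rw [adic_extPlace, ← redPl_extPlace (FΩ := FΩ) hO P', h]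
      exact hu
    · rcases eq_or_ne u 0 with rfl | hu0
      · simp
      · exact (h1 u hu0).le
  have := val_mem_of_regular hO (algebraMap_mem_gO F FΩ hO u) 𝔓 hreg
  rw [grd_algebraMap] at this
  exact ⟨hreg 𝔓 rfl, this.2⟩

/-- characterisation of the reduction of a place. -/
theorem redPl_eq_of_forall (𝔓 : Place Ω FΩ) (P : Place k F)
    (h : ∀ u : F, P.adicValuation u ≤ 1 →
      𝔓.adicValuation (algebraMap F FΩ u) ≤ 1 ∧ val 𝔓 (algebraMap F FΩ u) ∈ O) :
    redPl F FΩ hO 𝔓 = P := by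
  classical
  by_contra hne
  set Q := redPl F FΩ hO 𝔓 with hQ
  obtain ⟨u, hu, hu'⟩ := exists_single_pole Q
  have hu0 : u ≠ 0 := by
    rintro rfl
    simp at hu
  have huF : algebraMap F FΩ u ≠ 0 := by simpa using hu0
  obtain ⟨h1, h2⟩ := h u (hu' P (Ne.symm hne))
  have hinv : Q.adicValuation u⁻¹ < 1 := by
    rw [map_inv₀]
    exact inv_lt_one_of_one_lt₀ (not_le.1 hu)
  obtain ⟨h3, h4, h5⟩ := val_algebraMap_mem hO 𝔓 (u := u⁻¹) hinv.le
  rw [← hQ, (val_eq_zero_iff Q hinv.le).2 hinv, hO.res_eq_zero_iff h4] at h5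
  have h6 := val_mul 𝔓 h1 h3
  rw [map_inv₀, mul_inv_cancel₀ huF, val_one] at h6
  have h7 : O.valuation (val 𝔓 (algebraMap F FΩ u)) * O.valuation (val 𝔓 (algebraMap F FΩ u)⁻¹)
      = 1 := by
    rw [← map_mul, ← h6, map_one]
  rw [map_inv₀] at h5
  have h8 : O.valuation (val 𝔓 (algebraMap F FΩ u)) * O.valuation (val 𝔓 (algebraMap F FΩ u)⁻¹)
      < 1 := lt_of_le_of_lt (mul_le_of_le_one_left' ((O.valuation_le_one_iff _).2 h2)) h5
  exact h8.ne h7

end Fermat.Agent.S17.Loc
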