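import Fermat.Agent.S17.Loc.Vec

/-!
# S17 / Loc 5 : the Vandermonde inequality (divided differences)
-/

set_option autoImplicit false

open AlgebraicCurve

namespace Fermat.Agent.S17.Loc

open S27 VT RED Cur

variable {k Ω F FΩ : Type*} [Field k] [Field Ω] [Field F] [Field FΩ]
  [Algebra k Ω] [Algebra k F] [Algebra Ω FΩ] [Algebra F FΩ] [Algebra k FΩ]
  [IsScalarTower k Ω FΩ] [IsScalarTower k F FΩ]
  [IsAlgClosed k] [CharZero k] [IsAlgClosed Ω] [CharZero Ω] [IsFF k F] [IsFF Ω FΩ] [IsBC k Ω F FΩ]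
  {O : ValuationSubring Ω} (hO : IsKRat k O)

/-- **[Loc-VDM]**  `n` functions `f i : F`, `n` distinct places `𝔓 j` of `FΩ`, `Z j` coordinate vectors.
Then `|det (Z j i)| ≤ ∏ ‖Z j‖ ∏_{i<j} dist(𝔓 i, 𝔓 j)`, with equality if no non zero `k`-linear
combination of the `f i` vanishes on the divisor `∑ r(𝔓 j)` (as a section of `O(D)`).

Proof.  W.l.o.g. `Z j i = (u_R f i)(𝔓 j)`, `R = r(𝔓 j)`, `u_R : F` normalising `f` at `R` (then `ζ j` is a
unit).  For `j` let `j₁ < ... < j_l = j` be the indices `≤ j` with the same reduction `R`, `t` a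
uniformiser at `R`, `τ_m = t(𝔓 j_m)`.  Define `g^(0) = u_R f i`, `g^(m) = (g^(m-1) - g^(m-1)(𝔓 j_m)) / (t - τ_m)`
(`IsRegOn.divDiff`), `Λ j i := g^(l-1)(𝔓 j)`.  Then (Newton) `Λ j = ∑_{m ≤ l} Z j_m / ∏_{m' ≠ m, m' ≤ l} (τ_m - τ_m')`,
so `Λ = T Z` with `T` triangular with diagonal `1 / ∏_{m' < l} (τ_l - τ_m')`, i.e.
`det Z = det Λ * ∏_{i<j, same disc} (t(𝔓 j) - t(𝔓 i))`.  `Λ` is integral and its reduction is the matrix of the
Taylor coefficients `c_{l-1}(u_R f i)` at `R`, which is invertible iff no combination of the `f i` vanishes to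
order `≥ m_R` at all `R`. -/
theorem valuation_det_le {n : ℕ} (f : Fin n → F) (𝔓 : Fin n → Place Ω FΩ)
    (hinj : Function.Injective 𝔓) (Z : Fin n → Fin n → Ω)
    (hZ : ∀ j, IsPV (ext FΩ f) (𝔓 j) (Z j)) (ζ : Fin n → Ω) (hζ : ∀ j, IsNormalizer O (Z j) (ζ j)) :
    O.valuation (Matrix.det (Matrix.of Z)) * ∏ j, O.valuation (ζ j) ≤
      ∏ i, ∏ j ∈ Finset.Ioi i, dist F hO (𝔓 i) (𝔓 j) := by
  sorry

theorem valuation_det_eq {n : ℕ} (f : Fin n → F) {D : Divisor k F} (hD : IsPD f D)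
    (𝔓 : Fin n → Place Ω FΩ)
    (hinj : Function.Injective 𝔓) (Z : Fin n → Fin n → Ω)
    (hZ : ∀ j, IsPV (ext FΩ f) (𝔓 j) (Z j)) (ζ : Fin n → Ω) (hζ : ∀ j, IsNormalizer O (Z j) (ζ j))
    (hns : ∀ a ∈ Submodule.span k (Set.range f),
      a ∈ riemannRochSpace (D - sumDiv (fun j => redPl F FΩ hO (𝔓 j))) → a = 0) :
    O.valuation (Matrix.det (Matrix.of Z)) * ∏ j, O.valuation (ζ j) =
      ∏ i, ∏ j ∈ Finset.Ioi i, dist F hO (𝔓 i) (𝔓 j) := by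
  sorry

end Fermat.Agent.S17.Loc
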