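import Fermat.Agent.S17.Loc.Basic

/-!
# S17 / Loc 3 : the distance of two places of `FΩ`, divided differences, the exact formula
-/

set_option autoImplicit false

open AlgebraicCurve

namespace Fermat.Agent.S17.Loc

open S27 VT RED

variable {k Ω F FΩ : Type*} [Field k] [Field Ω] [Field F] [Field FΩ]
  [Algebra k Ω] [Algebra k F] [Algebra Ω FΩ] [Algebra F FΩ] [Algebra k FΩ]
  [IsScalarTower k Ω FΩ] [IsScalarTower k F FΩ]
  [IsAlgClosed k] [CharZero k] [IsAlgClosed Ω] [CharZero Ω] [IsFF k F] [IsFF Ω FΩ] [IsBC k Ω F FΩ]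
  {O : ValuationSubring Ω} (hO : IsKRat k O)

/-- a chosen uniformiser at `P`. -/
noncomputable def unif (P : Place k F) : F := (exists_unif P).choose

theorem ord_unif (P : Place k F) : P.ord (unif P) = 1 := by
  sorry

variable (F) in
open Classical in
/-- the distance of two places of `FΩ` : `v(t(𝔓) - t(𝔔))` if they have the same reduction `R`
(`t` a uniformiser at `R`), `1` otherwise. -/
noncomputable def dist (𝔓 𝔔 : Place Ω FΩ) : O.ValueGroup :=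
  if redPl F FΩ hO 𝔓 = redPl F FΩ hO 𝔔 then
    O.valuation (val 𝔓 (algebraMap F FΩ (unif (redPl F FΩ hO 𝔓))) -
      val 𝔔 (algebraMap F FΩ (unif (redPl F FΩ hO 𝔓))))
  else 1

theorem dist_of_ne {𝔓 𝔔 : Place Ω FΩ} (h : redPl F FΩ hO 𝔓 ≠ redPl F FΩ hO 𝔔) :
    dist F hO 𝔓 𝔔 = 1 := if_neg h

/-- `a` is integral for the Gauss valuation and regular on the whole residue disc of `R`. -/
def IsRegOn (R : Place k F) (a : FΩ) : Prop :=
  a ∈ gO F FΩ hO ∧ ∀ 𝔓 : Place Ω FΩ, redPl F FΩ hO 𝔓 = R → 𝔓.adicValuation a ≤ 1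

theorem isRegOn_algebraMap {R : Place k F} {u : F} (hu : R.adicValuation u ≤ 1) :
    IsRegOn hO R (algebraMap F FΩ u) := by
  sorry

theorem IsRegOn.add {R : Place k F} {a b : FΩ} (ha : IsRegOn hO R a) (hb : IsRegOn hO R b) :
    IsRegOn hO R (a + b) := by
  sorry

theorem IsRegOn.mul {R : Place k F} {a b : FΩ} (ha : IsRegOn hO R a) (hb : IsRegOn hO R b) :
    IsRegOn hO R (a * b) := by
  sorry

theorem isRegOn_const {R : Place k F} {c : Ω} (hc : c ∈ O) :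
    IsRegOn hO R (algebraMap Ω FΩ c) := by
  sorry

open Classical in
/-- for `t` a uniformiser at `R` and `𝔓` in the disc of `R`, the function `t - t(𝔓)` has a simple zero
at `𝔓` and no other zero in the disc of `R` (`RED.IsLocalParam.exists_shift`). -/
theorem ord_sub_val {R : Place k F} {t : F} (ht : R.ord t = 1) {𝔓 : Place Ω FΩ}
    (h𝔓 : redPl F FΩ hO 𝔓 = R) (𝔔 : Place Ω FΩ) (h𝔔 : redPl F FΩ hO 𝔔 = R) :
    𝔔.ord (algebraMap F FΩ t - algebraMap Ω FΩ (val 𝔓 (algebraMap F FΩ t))) =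
      if 𝔔 = 𝔓 then 1 else 0 := by
  sorry

/-- **divided difference** : `(a - a(𝔓)) / (t - t(𝔓))` is again integral and regular on the disc, and
its reduction is `(ā - ā(R)) / t`. -/
theorem IsRegOn.divDiff {R : Place k F} {t : F} (ht : R.ord t = 1) {a : FΩ} (ha : IsRegOn hO R a)
    {𝔓 : Place Ω FΩ} (h𝔓 : redPl F FΩ hO 𝔓 = R) :
    IsRegOn hO R ((a - algebraMap Ω FΩ (val 𝔓 a)) /
      (algebraMap F FΩ t - algebraMap Ω FΩ (val 𝔓 (algebraMap F FΩ t)))) ∧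
    grd F FΩ hO ((a - algebraMap Ω FΩ (val 𝔓 a)) /
      (algebraMap F FΩ t - algebraMap Ω FΩ (val 𝔓 (algebraMap F FΩ t)))) =
      (grd F FΩ hO a - algebraMap k F (val R (grd F FΩ hO a))) / t := by
  sorry

/-- the distance can be computed with any uniformiser. -/
theorem dist_eq {𝔓 𝔔 : Place Ω FΩ} (h : redPl F FΩ hO 𝔓 = redPl F FΩ hO 𝔔) {t : F}
    (ht : (redPl F FΩ hO 𝔓).ord t = 1) :
    dist F hO 𝔓 𝔔 = O.valuation (val 𝔓 (algebraMap F FΩ t) - val 𝔔 (algebraMap F FΩ t)) := by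
  sorry

theorem dist_comm (𝔓 𝔔 : Place Ω FΩ) : dist F hO 𝔓 𝔔 = dist F hO 𝔔 𝔓 := by
  sorry

theorem dist_le_one (𝔓 𝔔 : Place Ω FΩ) : dist F hO 𝔓 𝔔 ≤ 1 := by
  sorry

theorem dist_eq_zero_iff {𝔓 𝔔 : Place Ω FΩ} : dist F hO 𝔓 𝔔 = 0 ↔ 𝔓 = 𝔔 := by
  sorry

/-- a Gauss unit without zeros and poles in the disc of `r 𝔔` has a unit value at `𝔔`
(apply `mapDomain_divOf` to `a / a(𝔔) - 1`, as in `RED.IsReduction.val_value_le_one`). -/
theorem valuation_val_eq_one {a : FΩ} (ha : (gO F FΩ hO).valuation a = 1) (𝔔 : Place Ω FΩ)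
    (h : ∀ 𝔓 : Place Ω FΩ, redPl F FΩ hO 𝔓 = redPl F FΩ hO 𝔔 → 𝔓.ord a = 0) :
    O.valuation (val 𝔔 a) = 1 := by
  sorry

/-- **the exact formula** : `v(a(𝔔)) = ∏_𝔓 dist(𝔓,𝔔) ^ ord_𝔓(a)` for `a` of Gauss norm `1`.
(Divide `a` by `∏ (t - t(𝔓)) ^ ord_𝔓 a` over the zeros and poles `𝔓` in the disc of `r 𝔔`, and apply
`valuation_val_eq_one`.) -/
theorem valuation_val_eq_finprod {a : FΩ} (ha : (gO F FΩ hO).valuation a = 1) (𝔔 : Place Ω FΩ)
    (h𝔔 : 𝔔.ord a = 0) :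
    O.valuation (val 𝔔 a) = ∏ᶠ 𝔓 : Place Ω FΩ, dist F hO 𝔓 𝔔 ^ (𝔓.ord a) := by
  sorry

end Fermat.Agent.S17.Loc
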