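import Mathlib

/-!
# S17 / Loc 1a : abstract "Gauss localisation"

`ι : T → E` an injective ring homomorphism into a field, `ρ : T → Fb` a ring homomorphism to a field.
`gSub ι ρ = {a / b : ρ b ≠ 0}` is a subring of `E` and `ρ` extends to `gRed : gSub ι ρ → Fb`.
(Same pattern as RED/Gauss/Basic.lean `bigO`, `bigRed`.)
-/

set_option autoImplicit false
noncomputable section

namespace Fermat.Agent.S17.Loc

variable {T E Fb : Type*} [CommRing T] [Field E] [Field Fb] (ι : T →+* E) (ρ : T →+* Fb)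

/-- the localisation `{a / b : ρ b ≠ 0}` inside `E` -/
def gSub : Subring E where
  carrier := {y | ∃ a b : T, ρ b ≠ 0 ∧ y * ι b = ι a}
  mul_mem' := by
    rintro x y ⟨a, b, hb, h⟩ ⟨a', b', hb', h'⟩
    refine ⟨a * a', b * b', ?_, ?_⟩
    · rw [map_mul]; exact mul_ne_zero hb hb'
    · rw [map_mul, map_mul, ← h, ← h']; ring
  one_mem' := ⟨1, 1, by simp, by simp⟩
  add_mem' := by
    rintro x y ⟨a, b, hb, h⟩ ⟨a', b', hb', h'⟩
    refine ⟨a * b' + a' * b, b * b', ?_, ?_⟩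
    · rw [map_mul]; exact mul_ne_zero hb hb'
    · rw [map_mul, map_add, map_mul, map_mul, ← h, ← h']; ring
  zero_mem' := ⟨0, 1, by simp, by simp⟩
  neg_mem' := by
    rintro x ⟨a, b, hb, h⟩
    exact ⟨-a, b, hb, by rw [map_neg, ← h]; ring⟩

theorem mem_gSub {y : E} : y ∈ gSub ι ρ ↔ ∃ a b : T, ρ b ≠ 0 ∧ y * ι b = ι a := Iff.rfl

variable {ι ρ}

theorem gSub_ne_zero (hι : Function.Injective ι) {b : T} (hb : ρ b ≠ 0) : ι b ≠ 0 := by
  intro h
  have : b = 0 := hι (by rw [h, map_zero])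
  exact hb (by rw [this, map_zero])

theorem gRed_wd (hι : Function.Injective ι) {y : E} {a b a' b' : T} (hb : ρ b ≠ 0)
    (hb' : ρ b' ≠ 0) (h : y * ι b = ι a) (h' : y * ι b' = ι a') :
    ρ a / ρ b = ρ a' / ρ b' := by
  have e : a * b' = a' * b := by
    apply hι
    rw [map_mul, map_mul, ← h, ← h']; ring
  rw [div_eq_div_iff hb hb', ← map_mul, ← map_mul, e]

/-- the reduction, as a function -/
def gRedFun (y : gSub ι ρ) : Fb := ρ y.2.choose / ρ y.2.choose_spec.choose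

theorem gRedFun_eq (hι : Function.Injective ι) (y : gSub ι ρ) {a b : T} (hb : ρ b ≠ 0)
    (h : (y : E) * ι b = ι a) : gRedFun y = ρ a / ρ b :=
  gRed_wd hι y.2.choose_spec.choose_spec.1 hb y.2.choose_spec.choose_spec.2 h

/-- the reduction `gSub ι ρ → Fb` -/
def gRed (hι : Function.Injective ι) : gSub ι ρ →+* Fb where
  toFun := gRedFun
  map_one' := by
    rw [gRedFun_eq hι 1 (a := 1) (b := 1) (by simp) (by simp)]; simp
  map_zero' := by
    rw [gRedFun_eq hι 0 (a := 0) (b := 1) (by simp) (by simp)]; simp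
  map_mul' := by
    intro X Y
    obtain ⟨a, b, hb, h⟩ := X.2
    obtain ⟨a', b', hb', h'⟩ := Y.2
    rw [gRedFun_eq hι X hb h, gRedFun_eq hι Y hb' h',
      gRedFun_eq hι (X * Y) (a := a * a') (b := b * b')
        (by rw [map_mul]; exact mul_ne_zero hb hb')
        (by rw [Subring.coe_mul, map_mul, map_mul, ← h, ← h']; ring)]
    rw [map_mul, map_mul, div_mul_div_comm]
  map_add' := by
    intro X Y
    obtain ⟨a, b, hb, h⟩ := X.2
    obtain ⟨a', b', hb', h'⟩ := Y.2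
    rw [gRedFun_eq hι X hb h, gRedFun_eq hι Y hb' h',
      gRedFun_eq hι (X + Y) (a := a * b' + a' * b) (b := b * b')
        (by rw [map_mul]; exact mul_ne_zero hb hb')
        (by rw [Subring.coe_add, map_mul, map_add, map_mul, map_mul, ← h, ← h']; ring)]
    rw [map_mul, map_add, map_mul, map_mul, div_add_div _ _ hb hb', mul_comm (ρ b) (ρ a')]

theorem gRed_eq (hι : Function.Injective ι) (y : gSub ι ρ) {a b : T} (hb : ρ b ≠ 0)
    (h : (y : E) * ι b = ι a) : gRed hι y = ρ a / ρ b :=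
  gRedFun_eq hι y hb h

theorem map_mem_gSub (a : T) : ι a ∈ gSub ι ρ := ⟨a, 1, by simp, by simp⟩

theorem gRed_map (hι : Function.Injective ι) (a : T) :
    gRed hι (⟨ι a, map_mem_gSub a⟩ : gSub ι ρ) = ρ a := by
  rw [gRed_eq hι _ (a := a) (b := 1) (by simp) (by simp)]; simp

theorem div_mem_gSub (hι : Function.Injective ι) (a : T) {b : T} (hb : ρ b ≠ 0) :
    ι a / ι b ∈ gSub ι ρ :=
  ⟨a, b, hb, div_mul_cancel₀ _ (gSub_ne_zero hι hb)⟩

theorem gRed_div (hι : Function.Injective ι) (a : T) {b : T} (hb : ρ b ≠ 0) :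
    gRed hι (⟨ι a / ι b, div_mem_gSub hι a hb⟩ : gSub ι ρ) = ρ a / ρ b :=
  gRed_eq hι _ hb (div_mul_cancel₀ _ (gSub_ne_zero hι hb))

/-- an element with nonzero reduction is invertible -/
theorem inv_mem_gSub (hι : Function.Injective ι) (y : gSub ι ρ) (hy : gRed hι y ≠ 0) :
    (y : E)⁻¹ ∈ gSub ι ρ := by
  obtain ⟨a, b, hb, h⟩ := y.2
  rw [gRed_eq hι y hb h] at hy
  have ha : ρ a ≠ 0 := fun h0 => hy (by rw [h0, zero_div])
  refine ⟨b, a, ha, ?_⟩
  have hb0 := gSub_ne_zero hι hb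
  have ha0 := gSub_ne_zero hι ha
  have hy0 : (y : E) ≠ 0 := by
    intro h0
    rw [h0, zero_mul] at h
    exact ha0 h.symm
  rw [← h]
  field_simp

/-- the valuation ring, if every element of `E` is `c * (a / b)` ... -/
def gVal (hval : ∀ y : E, y ∈ gSub ι ρ ∨ y⁻¹ ∈ gSub ι ρ) : ValuationSubring E :=
  { gSub ι ρ with mem_or_inv_mem' := hval }

theorem mem_gVal (hval : ∀ y : E, y ∈ gSub ι ρ ∨ y⁻¹ ∈ gSub ι ρ) {y : E} :
    y ∈ gVal hval ↔ y ∈ gSub ι ρ := Iff.rfl

end Fermat.Agent.S17.Loc
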