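import Fermat.Agent.S17.VT.Chevalley
import Fermat.Agent.S27.BC.Aut
import Fermat.Agent.S17.Loc.GaussAbs

/-!
# S17 / Loc 1b : the ring `F ⊗[k] O`, its embedding in `FΩ` and its reduction to `F`
-/

set_option autoImplicit false
noncomputable section

open scoped TensorProduct

namespace Fermat.Agent.S17.Loc

open S27 VT

variable {k Ω : Type*} [Field k] [Field Ω] [Algebra k Ω] {O : ValuationSubring Ω}

/-- `O` as a `k`-subalgebra of `Ω`. -/
def oAlg (hO : IsKRat k O) : Subalgebra k Ω where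
  toSubsemiring := O.toSubring.toSubsemiring
  algebraMap_mem' := hO.algebraMap_mem

theorem mem_oAlg (hO : IsKRat k O) {x : Ω} : x ∈ oAlg hO ↔ x ∈ O := Iff.rfl

/-- the residue map `O → k`. -/
def resHom (hO : IsKRat k O) : oAlg hO →ₐ[k] k where
  toFun y := hO.res (y : Ω)
  map_one' := by
    have := hO.res_algebraMap 1
    rwa [map_one] at this
  map_mul' x y := hO.res_mul x.2 y.2
  map_zero' := by
    have := hO.res_algebraMap 0
    rwa [map_zero] at this
  map_add' x y := hO.res_add x.2 y.2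
  commutes' c := hO.res_algebraMap c

theorem resHom_apply (hO : IsKRat k O) (y : oAlg hO) : resHom hO y = hO.res (y : Ω) := rfl

variable (F FΩ : Type*) [Field F] [Field FΩ]
  [Algebra k F] [Algebra Ω FΩ] [Algebra F FΩ] [Algebra k FΩ]
  [IsScalarTower k Ω FΩ] [IsScalarTower k F FΩ]

/-- `F ⊗ O → FΩ`. -/
def iotaO (hO : IsKRat k O) : F ⊗[k] oAlg hO →ₐ[k] FΩ :=
  (bcMap k Ω F FΩ).comp (Algebra.TensorProduct.map (AlgHom.id k F) (oAlg hO).val)

/-- `F ⊗ O → F ⊗ k = F`. -/
def rhoO (hO : IsKRat k O) : F ⊗[k] oAlg hO →ₐ[k] F :=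
  Algebra.TensorProduct.productMap (AlgHom.id k F) ((Algebra.ofId k F).comp (resHom hO))

variable {F}

theorem iotaO_tmul (hO : IsKRat k O) (f : F) (x : oAlg hO) :
    iotaO F FΩ hO (f ⊗ₜ x) = algebraMap F FΩ f * algebraMap Ω FΩ (x : Ω) := by
  simp [iotaO, BCAux.bcMap_tmul]

theorem rhoO_tmul (hO : IsKRat k O) (f : F) (x : oAlg hO) :
    rhoO F hO (f ⊗ₜ x) = f * algebraMap k F (hO.res (x : Ω)) := by
  simp [rhoO, Algebra.ofId_apply, resHom_apply]

variable {ι : Type*} (b : Module.Basis ι k F)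

/-- the element of `F ⊗ O` with coordinates `α`. -/
def tO (hO : IsKRat k O) : (ι →₀ oAlg hO) ≃ₗ[k] F ⊗[k] oAlg hO :=
  open Classical in (TensorProduct.equivFinsuppOfBasisLeft b).symm

theorem tO_single (hO : IsKRat k O) (i : ι) (x : oAlg hO) :
    tO b hO (Finsupp.single i x) = b i ⊗ₜ x := by
  classical
  rw [tO, TensorProduct.equivFinsuppOfBasisLeft_symm_apply, Finsupp.sum_single_index]
  exact TensorProduct.tmul_zero _ _

/-- coordinates in `Ω`. -/
def coeV (hO : IsKRat k O) : (ι →₀ oAlg hO) →+ (ι →₀ Ω) :=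
  Finsupp.mapRange.addMonoidHom ((oAlg hO).val : oAlg hO →+ Ω)

theorem coeV_apply (hO : IsKRat k O) (α : ι →₀ oAlg hO) (i : ι) : coeV hO α i = (α i : Ω) := rfl

theorem coeV_injective (hO : IsKRat k O) : Function.Injective (coeV (ι := ι) hO) := by
  intro α β h
  ext i
  exact congrArg (fun z : ι →₀ Ω => z i) h

theorem iotaO_tO (hO : IsKRat k O) (α : ι →₀ oAlg hO) :
    iotaO F FΩ hO (tO b hO α) = BCAux.Lam (K := Ω) (F := FΩ) b (coeV hO α) := by
  induction α using Finsupp.induction_linear with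
  | zero => simp
  | add x y hx hy => rw [map_add, map_add, map_add, map_add, hx, hy]
  | single i x =>
    rw [tO_single, iotaO_tmul]
    have : coeV hO (Finsupp.single i x) = Finsupp.single i (x : Ω) := by
      simp [coeV]
    rw [this, BCAux.Lam_single, mul_comm]

theorem repr_rhoO_tO (hO : IsKRat k O) (α : ι →₀ oAlg hO) (i : ι) :
    b.repr (rhoO F hO (tO b hO α)) i = hO.res (α i : Ω) := by
  induction α using Finsupp.induction_linear with
  | zero =>
    have := hO.res_algebraMap 0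
    rw [map_zero] at this
    simp [this]
  | add x y hx hy =>
    rw [map_add, map_add, map_add, Finsupp.add_apply, hx, hy, Finsupp.add_apply]
    exact (hO.res_add (x i).2 (y i).2).symm
  | single j x =>
    rw [tO_single, rhoO_tmul, mul_comm, ← Algebra.smul_def, map_smul, Module.Basis.repr_self,
      Finsupp.smul_apply]
    by_cases hij : j = i
    · subst hij
      simp
    · have := hO.res_algebraMap 0
      rw [map_zero] at this
      simp [Finsupp.single_eq_of_ne' hij, this]

variable [IsBC k Ω F FΩ]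

theorem iotaO_injective (hO : IsKRat k O) : Function.Injective (iotaO F FΩ hO) := by
  classical
  let b := Module.Basis.ofVectorSpace k F
  intro x y h
  obtain ⟨α, rfl⟩ := (tO b hO).surjective x
  obtain ⟨β, rfl⟩ := (tO b hO).surjective y
  rw [iotaO_tO, iotaO_tO] at h
  rw [coeV_injective hO (BCAux.Lam_injective b h)]

/-- **pivot**: a nonzero vector of coordinates can be scaled to an integral one whose `i₀`-th
coordinate is `1`. -/
theorem exists_pivot_coord (hO : IsKRat k O) (a : ι →₀ Ω) (ha : a ≠ 0) :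
    ∃ (c : Ω) (α : ι →₀ oAlg hO) (i₀ : ι), c ≠ 0 ∧ coeV hO α = c • a ∧ (α i₀ : Ω) = 1 := by
  classical
  have hne : a.support.Nonempty := Finsupp.support_nonempty_iff.2 ha
  obtain ⟨i₀, hi₀, hmax⟩ := a.support.exists_max_image (fun i => O.valuation (a i)) hne
  have h0 : a i₀ ≠ 0 := Finsupp.mem_support_iff.1 hi₀
  have hmem : ∀ i, (a i₀)⁻¹ * a i ∈ oAlg hO := by
    intro i
    rw [mem_oAlg, ← ValuationSubring.valuation_le_one_iff, map_mul, map_inv₀]
    have hv0 : O.valuation (a i₀) ≠ 0 := (Valuation.ne_zero_iff _).2 h0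
    rw [inv_mul_le_iff₀ (zero_lt_iff.2 hv0), mul_one]
    by_cases hi : i ∈ a.support
    · exact hmax i hi
    · rw [Finsupp.notMem_support_iff.1 hi, map_zero]; exact zero_le
  refine ⟨(a i₀)⁻¹, Finsupp.onFinset a.support (fun i => ⟨(a i₀)⁻¹ * a i, hmem i⟩) ?_, i₀,
    inv_ne_zero h0, ?_, ?_⟩
  · intro i hi
    rw [Finsupp.mem_support_iff]
    intro h1
    apply hi
    apply Subtype.ext
    show (a i₀)⁻¹ * a i = 0
    rw [h1, mul_zero]
  · ext i
    rw [coeV_apply, Finsupp.onFinset_apply, Finsupp.smul_apply, smul_eq_mul]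
  · rw [Finsupp.onFinset_apply]
    exact inv_mul_cancel₀ h0

end Fermat.Agent.S17.Loc
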