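import Fermat.Agent.S17.Loc.Dist
import Fermat.Agent.S17.Cur.PV

/-!
# S17 / Loc 4 : reduction of projective vectors, secant lines and hyperplane sections
-/

set_option autoImplicit false

open AlgebraicCurve

namespace Fermat.Agent.S17.Loc

open S27 VT RED Cur

variable {k Ω F FΩ : Type*} [Field k] [Field Ω] [Field F] [Field FΩ]
  [Algebra k Ω] [Algebra k F] [Algebra Ω FΩ] [Algebra F FΩ] [Algebra k FΩ]
  [IsScalarTower k Ω FΩ] [IsScalarTower k F FΩ]
  [IsAlgClosed k] [CharZero k] [IsAlgClosed Ω] [CharZero Ω] [IsFF k F] [IsFF Ω FΩ] [IsBC k Ω F FΩ]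
  {O : ValuationSubring Ω} (hO : IsKRat k O) {ι : Type*}

variable (FΩ) in
/-- the family `φ` viewed in `FΩ`. -/
def ext (φ : ι → F) : ι → FΩ := fun i => algebraMap F FΩ (φ i)

/-- **[Loc-PV]** the normalised coordinate vector of `𝔓` reduces to a coordinate vector of `r 𝔓`.
(Take `u : F` normalising `φ` at `R = r 𝔓`; `X` is proportional to `(u φ i)(𝔓)`, which is integral with
reduction `(u φ i)(R)` by `val_algebraMap_mem`.) -/
theorem isPV_res {φ : ι → F} {𝔓 : Place Ω FΩ} {X : ι → Ω} (hX : IsPV (ext FΩ φ) 𝔓 X) {σ : Ω}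
    (hσ : IsNormalizer O X σ) : IsPV φ (redPl F FΩ hO 𝔓) (fun i => hO.res (σ * X i)) := by
  sorry

/-- coordinate vectors of constant places. -/
theorem isPV_extPlace {φ : ι → F} {P : Place k F} {x : ι → k} (hx : IsPV φ P x) :
    IsPV (ext FΩ φ) (extPlace Ω FΩ P) (fun i => algebraMap k Ω (x i)) := by
  sorry

/-- **[Loc-W]** the secant line of `𝔓 ≠ 𝔔` reduces to the secant (tangent) line of the reductions, and
`‖X ∧ Y‖ = ‖X‖ ‖Y‖ dist(𝔓,𝔔)`.
(Different reductions: clear.  Same reduction `R`, `t` a uniformiser at `R`, `y i = u φ i`: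
`y(𝔓) ∧ y(𝔔) = (t(𝔔) - t(𝔓)) • y(𝔓) ∧ z`, `z i = (y i (𝔔) - y i (𝔓)) / (t(𝔔) - t(𝔓))` = value at `𝔔` of the
divided difference, integral with residue `((y i - y i (R)) / t)(R)` by `IsRegOn.divDiff` and
`val_mem_of_regular`; the reduction is `≠ 0` because `φ` is very ample.) -/
theorem isWV_res {φ : ι → F} (hVA : IsVA k φ) {𝔓 𝔔 : Place Ω FΩ} (hne : 𝔓 ≠ 𝔔) {X Y : ι → Ω}
    (hX : IsPV (ext FΩ φ) 𝔓 X) (hY : IsPV (ext FΩ φ) 𝔔 Y) {σ τ ω : Ω} (hσ : IsNormalizer O X σ)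
    (hτ : IsNormalizer O Y τ)
    (hω : IsNormalizer O (fun p : ι × ι => X p.1 * Y p.2 - X p.2 * Y p.1) ω) :
    IsWV φ (redPl F FΩ hO 𝔓) (redPl F FΩ hO 𝔔)
      (fun p => hO.res (ω * (X p.1 * Y p.2 - X p.2 * Y p.1))) ∧
    O.valuation σ * O.valuation τ = O.valuation ω * dist F hO 𝔓 𝔔 := by
  sorry

/-- the wedge of the coordinate vectors of two distinct places is not zero. -/
theorem wedge_ne_zero {φ : ι → F} (hVA : IsVA k φ) {𝔓 𝔔 : Place Ω FΩ} (hne : 𝔓 ≠ 𝔔) {X Y : ι → Ω}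
    (hX : IsPV (ext FΩ φ) 𝔓 X) (hY : IsPV (ext FΩ φ) 𝔔 Y) :
    (fun p : ι × ι => X p.1 * Y p.2 - X p.2 * Y p.1) ≠ 0 := by
  sorry

variable [Fintype ι]

variable (FΩ) in
/-- the linear form with coefficients `c`, as an element of `FΩ`. -/
noncomputable def lin (φ : ι → F) (c : ι → Ω) : FΩ :=
  ∑ i, algebraMap Ω FΩ (c i) * algebraMap F FΩ (φ i)

variable (FΩ) in
/-- the divisor of zeros of the hyperplane section with coefficients `c`. -/
noncomputable def zeroDiv (φ : ι → F) (D : Divisor k F) (c : ι → Ω) : Divisor Ω FΩ :=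
  divOf (K := Ω) (lin FΩ φ c) + extDiv Ω FΩ D

theorem lin_ne_zero {φ : ι → F} (hli : LinearIndependent k φ) {c : ι → Ω} (hc : c ≠ 0) :
    lin FΩ φ c ≠ 0 := by
  sorry

theorem zeroDiv_nonneg {φ : ι → F} (hli : LinearIndependent k φ) {D : Divisor k F}
    (hD : IsPD φ D) {c : ι → Ω} (hc : c ≠ 0) : 0 ≤ zeroDiv FΩ φ D c := by
  sorry

theorem degree_zeroDiv {φ : ι → F} (hli : LinearIndependent k φ) (D : Divisor k F)
    {c : ι → Ω} (hc : c ≠ 0) : Divisor.degree (zeroDiv FΩ φ D c) = Divisor.degree D := by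
  sorry

/-- `𝔔` is a zero of the hyperplane section iff the linear form vanishes on its coordinates. -/
theorem zeroDiv_apply_eq_zero_iff {φ : ι → F} (hli : LinearIndependent k φ) {D : Divisor k F}
    (hD : IsPD φ D) {c : ι → Ω} (hc : c ≠ 0) {𝔔 : Place Ω FΩ} {Y : ι → Ω}
    (hY : IsPV (ext FΩ φ) 𝔔 Y) : zeroDiv FΩ φ D c 𝔔 = 0 ↔ ∑ i, c i * Y i ≠ 0 := by
  sorry

/-- **[Loc-D]** the zeros of a hyperplane section reduce to the zeros of the reduced section. -/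
theorem mapDomain_zeroDiv {φ : ι → F} (hli : LinearIndependent k φ) (D : Divisor k F)
    {c : ι → Ω} {γ : Ω} (hγ : IsNormalizer O c γ) :
    (zeroDiv FΩ φ D c).mapDomain (redPl F FΩ hO) =
      divOf (K := k) (∑ i, algebraMap k F (hO.res (γ * c i)) * φ i) + D := by
  sorry

/-- **[HF]** the hyperplane formula : the distance of `𝔔` to the hyperplane `c` is the product of the
distances of `𝔔` to the points of the hyperplane section.
(`valuation_val_eq_finprod` for `a = γ u ℓ_c`, `u : F` with `ord_R u = D R`, `R = r 𝔔`; in the disc of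
`R` the divisor of `a` is `zeroDiv`.) -/
theorem hyperplane_formula {φ : ι → F} (hli : LinearIndependent k φ) {D : Divisor k F}
    (hD : IsPD φ D) {c : ι → Ω} {γ : Ω} (hγ : IsNormalizer O c γ) {𝔔 : Place Ω FΩ} {Y : ι → Ω}
    (hY : IsPV (ext FΩ φ) 𝔔 Y) {τ : Ω} (hτ : IsNormalizer O Y τ) (hne : ∑ i, c i * Y i ≠ 0) :
    O.valuation γ * O.valuation τ * O.valuation (∑ i, c i * Y i) =
      ∏ᶠ 𝔓 : Place Ω FΩ, dist F hO 𝔓 𝔔 ^ (zeroDiv FΩ φ D c 𝔓) := by
  sorry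

end Fermat.Agent.S17.Loc
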